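import Mathlib

/-!
# S35/S36 top wiring: an elementary Kolchin lemma on lattices  (helper2)

`s35asm_kolchin` : `R` a Noetherian domain of characteristic zero, `Λ` a finite torsion-free nonzero
`R`-module, `ρ : G →* End_R Λ`, `I ≤ G` a subgroup with `(ρ σ - 1)² = 0` for all `σ ∈ I`.  Then `I`
has a nonzero common fixed vector in `Λ`.

Proof: for `a = ρ σ - 1`, `b = ρ τ - 1` the four relations `(ρ(σ^{±1} τ^{±1}) - 1)² = 0` give
`a b = - b a` (`s35asm_anticomm`); hence `ker a` is `I`-stable; strong induction on the rank of an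
`I`-stable nonzero submodule `W`: if some `σ ∈ I` moves `W`, then `W ⊓ ker a ≠ ⊥` (it contains `a W`)
has smaller rank (rank-nullity over a domain).
-/

set_option autoImplicit false

namespace Fermat.Agent.G

open Module

section Anti

variable {E : Type*} [Ring E]

/-- `a² = 0 = b²` and `((1+a)(1+b) - 1)² = 0` for the four sign choices imply `4 abab = 0`,
`2 bab = 0 = 2 aba`, `ab + ba = 0` in a ring without `2`-torsion. -/
theorem s35asm_anticomm_aux (a b : E) (ha : a * a = 0) (hb : b * b = 0)
    (h2 : ∀ x : E, x + x = 0 → x = 0)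
    (h1 : (a + b + a * b) * (a + b + a * b) = 0)
    (h3 : (a - b - a * b) * (a - b - a * b) = 0)
    (h4 : (-a + b - a * b) * (-a + b - a * b) = 0)
    (h5 : (-a - b + a * b) * (-a - b + a * b) = 0) : a * b + b * a = 0 := by
  -- the four monomials
  set X1 : E := a * b + b * a with hX1
  set X2 : E := a * b * a with hX2
  set X3 : E := b * a * b with hX3
  set X4 : E := a * b * a * b with hX4
  have haab : a * a * b = 0 := by rw [ha, zero_mul]
  have habb : a * b * b = 0 := by rw [mul_assoc, hb, mul_zero]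
  have e1 : (a + b + a * b) * (a + b + a * b) = X1 + X2 + X3 + X4 := by
    rw [hX1, hX2, hX3, hX4]
    have : (a + b + a * b) * (a + b + a * b) =
        a * a + a * b + a * a * b + (b * a + b * b + b * a * b) +
          (a * b * a + a * b * b + a * b * a * b) := by noncomm_ring
    rw [this, ha, hb, habb, zero_mul]
    abel
  have e3 : (a - b - a * b) * (a - b - a * b) = -X1 - X2 + X3 + X4 := by
    rw [hX1, hX2, hX3, hX4]
    have : (a - b - a * b) * (a - b - a * b) =
        a * a - a * b - a * a * b - (b * a - b * b - b * a * b) -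
          (a * b * a - a * b * b - a * b * a * b) := by noncomm_ring
    rw [this, ha, hb, habb, zero_mul]
    abel
  have e4 : (-a + b - a * b) * (-a + b - a * b) = -X1 + X2 - X3 + X4 := by
    rw [hX1, hX2, hX3, hX4]
    have : (-a + b - a * b) * (-a + b - a * b) =
        a * a - a * b + a * a * b + (-(b * a) + b * b - b * a * b) +
          (a * b * a - a * b * b + a * b * a * b) := by noncomm_ring
    rw [this, ha, hb, habb, zero_mul]
    abel
  have e5 : (-a - b + a * b) * (-a - b + a * b) = X1 - X2 - X3 + X4 := by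
    rw [hX1, hX2, hX3, hX4]
    have : (-a - b + a * b) * (-a - b + a * b) =
        a * a + a * b - a * a * b + (b * a + b * b - b * a * b) +
          (-(a * b * a) - a * b * b + a * b * a * b) := by noncomm_ring
    rw [this, ha, hb, habb, zero_mul]
    abel
  rw [e1] at h1
  rw [e3] at h3
  rw [e4] at h4
  rw [e5] at h5
  -- `4 X4 = 0`
  have hX4' : X4 = 0 := by
    apply h2
    apply h2
    have : X4 + X4 + (X4 + X4) =
        (X1 + X2 + X3 + X4) + (-X1 - X2 + X3 + X4) + (-X1 + X2 - X3 + X4) +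
          (X1 - X2 - X3 + X4) := by abel
    rw [this, h1, h3, h4, h5]
    abel
  have hX3' : X3 = 0 := by
    apply h2
    have : X3 + X3 = (X1 + X2 + X3 + X4) + (-X1 - X2 + X3 + X4) - (X4 + X4) := by abel
    rw [this, h1, h3, hX4']
    abel
  have hX2' : X2 = 0 := by
    apply h2
    have : X2 + X2 = (X1 + X2 + X3 + X4) + (-X1 + X2 - X3 + X4) - (X4 + X4) := by abel
    rw [this, h1, h4, hX4']
    abel
  have : X1 = (X1 + X2 + X3 + X4) - X2 - X3 - X4 := by abel
  rw [this, h1, hX2', hX3', hX4']
  abel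

end Anti

section Kolchin

variable {R : Type*} [CommRing R] [IsDomain R] [CharZero R] [IsNoetherianRing R]
  {Λ : Type*} [AddCommGroup Λ] [Module R Λ] [Module.Finite R Λ] [Module.IsTorsionFree R Λ]
  {G : Type*} [Group G] (ρ : G →* Module.End R Λ) (I : Subgroup G)

/-- no `2`-torsion in `End Λ` -/
theorem s35asm_end_two_torsion (x : Module.End R Λ) (h : x + x = 0) : x = 0 := by
  refine LinearMap.ext fun v => ?_
  have h1 := LinearMap.congr_fun h v
  rw [LinearMap.add_apply, LinearMap.zero_apply, ← two_smul R] at h1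
  rcases smul_eq_zero.mp h1 with h2 | h2
  · exact absurd h2 two_ne_zero
  · exact h2

/-- the anticommutation relation -/
theorem s35asm_anticomm (h : ∀ σ ∈ I, (ρ σ - 1) * (ρ σ - 1) = 0) {σ τ : G} (hσ : σ ∈ I)
    (hτ : τ ∈ I) : (ρ σ - 1) * (ρ τ - 1) + (ρ τ - 1) * (ρ σ - 1) = 0 := by
  set a : Module.End R Λ := ρ σ - 1 with ha
  set b : Module.End R Λ := ρ τ - 1 with hb
  have haa : a * a = 0 := h σ hσ
  have hbb : b * b = 0 := h τ hτ
  have hσ' : ρ σ = 1 + a := by rw [ha]; abel
  have hτ' : ρ τ = 1 + b := by rw [hb]; abel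
  have hσi : ρ σ⁻¹ = 1 - a := by
    have h1 : ρ σ * (1 - a) = 1 := by
      rw [hσ']
      have : (1 + a) * (1 - a) = 1 - a * a := by noncomm_ring
      rw [this, haa, sub_zero]
    have h2 : ρ σ⁻¹ * ρ σ = 1 := by rw [← map_mul, inv_mul_cancel, map_one]
    calc ρ σ⁻¹ = ρ σ⁻¹ * (ρ σ * (1 - a)) := by rw [h1, mul_one]
      _ = 1 - a := by rw [← mul_assoc, h2, one_mul]
  have hτi : ρ τ⁻¹ = 1 - b := by
    have h1 : ρ τ * (1 - b) = 1 := by
      rw [hτ']
      have : (1 + b) * (1 - b) = 1 - b * b := by noncomm_ring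
      rw [this, hbb, sub_zero]
    have h2 : ρ τ⁻¹ * ρ τ = 1 := by rw [← map_mul, inv_mul_cancel, map_one]
    calc ρ τ⁻¹ = ρ τ⁻¹ * (ρ τ * (1 - b)) := by rw [h1, mul_one]
      _ = 1 - b := by rw [← mul_assoc, h2, one_mul]
  have k1 := h (σ * τ) (I.mul_mem hσ hτ)
  have k3 := h (σ * τ⁻¹) (I.mul_mem hσ (I.inv_mem hτ))
  have k4 := h (σ⁻¹ * τ) (I.mul_mem (I.inv_mem hσ) hτ)
  have k5 := h (σ⁻¹ * τ⁻¹) (I.mul_mem (I.inv_mem hσ) (I.inv_mem hτ))
  rw [map_mul, hσ', hτ'] at k1
  rw [map_mul, hσ', hτi] at k3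
  rw [map_mul, hσi, hτ'] at k4
  rw [map_mul, hσi, hτi] at k5
  have f1 : (1 + a) * (1 + b) - 1 = a + b + a * b := by noncomm_ring
  have f3 : (1 + a) * (1 - b) - 1 = a - b - a * b := by noncomm_ring
  have f4 : (1 - a) * (1 + b) - 1 = -a + b - a * b := by noncomm_ring
  have f5 : (1 - a) * (1 - b) - 1 = -a - b + a * b := by noncomm_ring
  rw [f1] at k1
  rw [f3] at k3
  rw [f4] at k4
  rw [f5] at k5
  exact s35asm_anticomm_aux a b haa hbb s35asm_end_two_torsion k1 k3 k4 k5

/-- the induction: an `I`-stable nonzero submodule contains a nonzero fixed vector -/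
theorem s35asm_kolchin_aux (h : ∀ σ ∈ I, (ρ σ - 1) * (ρ σ - 1) = 0) (n : ℕ) :
    ∀ W : Submodule R Λ, (∀ σ ∈ I, ∀ w ∈ W, ρ σ w ∈ W) → W ≠ ⊥ → finrank R W ≤ n →
      ∃ v ∈ W, v ≠ 0 ∧ ∀ σ ∈ I, ρ σ v = v := by
  induction n with
  | zero =>
    intro W _ hW0 hn
    exfalso
    have hfin : Module.Finite R W := Module.Finite.of_injective W.subtype W.injective_subtype
    obtain ⟨w, hw, hw0⟩ := (Submodule.ne_bot_iff W).mp hW0
    have : 0 < finrank R W :=
      Module.finrank_pos_iff_exists_ne_zero.mpr ⟨⟨w, hw⟩, fun h0 => hw0 (congrArg Subtype.val h0)⟩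
    omega
  | succ n ih =>
    intro W hst hW0 hn
    by_cases hfix : ∀ σ ∈ I, ∀ w ∈ W, ρ σ w = w
    · obtain ⟨w, hw, hw0⟩ := (Submodule.ne_bot_iff W).mp hW0
      exact ⟨w, hw, hw0, fun σ hσ => hfix σ hσ w hw⟩
    · push Not at hfix
      obtain ⟨σ, hσ, w, hw, hσw⟩ := hfix
      set a : Module.End R Λ := ρ σ - 1 with ha
      have haa : a * a = 0 := h σ hσ
      have haw : a w ≠ 0 := by
        rw [ha, LinearMap.sub_apply, Module.End.one_apply]
        exact sub_ne_zero.mpr hσw
      have haW : ∀ u ∈ W, a u ∈ W := by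
        intro u hu
        rw [ha, LinearMap.sub_apply, Module.End.one_apply]
        exact W.sub_mem (hst σ hσ u hu) hu
      set W' : Submodule R Λ := W ⊓ LinearMap.ker a with hW'
      have hW'st : ∀ τ ∈ I, ∀ u ∈ W', ρ τ u ∈ W' := by
        intro τ hτ u hu
        obtain ⟨hu1, hu2⟩ := Submodule.mem_inf.mp hu
        rw [LinearMap.mem_ker] at hu2
        refine Submodule.mem_inf.mpr ⟨hst τ hτ u hu1, ?_⟩
        rw [LinearMap.mem_ker]
        -- `a (τ u) = a u + a (b u) = - b (a u) = 0`
        have hanti := s35asm_anticomm ρ I h hσ hτ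
        have h1 := LinearMap.congr_fun hanti u
        simp only [LinearMap.add_apply, Module.End.mul_apply, LinearMap.zero_apply] at h1
        rw [← ha, hu2, map_zero, add_zero] at h1
        have h2 : ρ τ u = u + (ρ τ - 1) u := by
          rw [LinearMap.sub_apply, Module.End.one_apply]; abel
        rw [h2, map_add, hu2, h1, add_zero]
      have hW'0 : W' ≠ ⊥ := by
        intro h0
        have : a w ∈ W' := by
          refine Submodule.mem_inf.mpr ⟨haW w hw, ?_⟩
          rw [LinearMap.mem_ker, ← Module.End.mul_apply, haa, LinearMap.zero_apply]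
        rw [h0, Submodule.mem_bot] at this
        exact haw this
      -- the rank drops
      have hfinW : Module.Finite R W := Module.Finite.of_injective W.subtype W.injective_subtype
      have hlt : finrank R W' < finrank R W := by
        set f : W →ₗ[R] Λ := a.domRestrict W with hf
        have h1 := (LinearMap.ker f).finrank_quotient_add_finrank
        rw [LinearEquiv.finrank_eq f.quotKerEquivRange] at h1
        have hfinR : Module.Finite R (LinearMap.range f) :=
          Module.Finite.of_injective (LinearMap.range f).subtype (Submodule.injective_subtype _)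
        have h2 : 0 < finrank R (LinearMap.range f) :=
          Module.finrank_pos_iff_exists_ne_zero.mpr
            ⟨⟨a w, ⟨⟨w, hw⟩, rfl⟩⟩, fun h0 => haw (congrArg Subtype.val h0)⟩
        -- `ker f ≃ W'`
        have h3 : finrank R (LinearMap.ker f) = finrank R W' := by
          refine LinearEquiv.finrank_eq
            { toFun := fun x => ⟨(x.1 : Λ), Submodule.mem_inf.mpr ⟨x.1.2, by
                have := x.2
                rw [LinearMap.mem_ker] at this
                rw [LinearMap.mem_ker]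
                exact this⟩⟩
              map_add' := fun _ _ => rfl
              map_smul' := fun _ _ => rfl
              invFun := fun y => ⟨⟨(y : Λ), (Submodule.mem_inf.mp y.2).1⟩, by
                rw [LinearMap.mem_ker]
                exact LinearMap.mem_ker.mp (Submodule.mem_inf.mp y.2).2⟩
              left_inv := fun _ => rfl
              right_inv := fun _ => rfl }
        omega
      obtain ⟨v, hv, hv0, hvfix⟩ := ih W' hW'st hW'0 (by omega)
      exact ⟨v, (Submodule.mem_inf.mp hv).1, hv0, hvfix⟩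

/-- **elementary Kolchin on a lattice.** -/
theorem s35asm_kolchin [Nontrivial Λ] (h : ∀ σ ∈ I, (ρ σ - 1) * (ρ σ - 1) = 0) :
    ∃ v : Λ, v ≠ 0 ∧ ∀ σ ∈ I, ρ σ v = v := by
  obtain ⟨v, -, hv0, hv⟩ := s35asm_kolchin_aux ρ I h (finrank R (⊤ : Submodule R Λ)) ⊤
    (fun _ _ _ _ => Submodule.mem_top)
    (by
      obtain ⟨x, hx⟩ := exists_ne (0 : Λ)
      exact (Submodule.ne_bot_iff _).mpr ⟨x, Submodule.mem_top, hx⟩) le_rfl
  exact ⟨v, hv0, hv⟩

end Kolchin

end Fermat.Agent.G
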