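import Mathlib

/-!
# S35/S36 top wiring: common kernels and base change  (helper2)

`s35asm_tensor_fixed` : `R` a PID, `A` a torsion-free `R`-module, `T` a flat `R`-module,
`E i : T →ₗ[R] T` a family of endomorphisms.  If a nonzero `v ∈ A ⊗ T` is killed by all `1 ⊗ E i`,
then a nonzero `t ∈ T` is killed by all `E i`.

(The coefficients of `v` lie in a finitely generated, hence free, submodule `A₀ ⊆ A`;
`A₀ ⊗ T → A ⊗ T` is injective because `T` is flat; `A₀ ⊗ T ≅ T^s` compatibly with the `E i`.)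
-/

set_option autoImplicit false

namespace Fermat.Agent.G

open scoped TensorProduct
open Module

section

variable {R : Type*} [CommRing R] {A : Type*} [AddCommGroup A] [Module R A]
  {T : Type*} [AddCommGroup T] [Module R T]

/-- monotonicity of the image of `A₀ ⊗ T → A ⊗ T` -/
theorem s35asm_range_rTensor_mono {A₁ A₂ : Submodule R A} (h : A₁ ≤ A₂) :
    LinearMap.range (A₁.subtype.rTensor T) ≤ LinearMap.range (A₂.subtype.rTensor T) := by
  have h1 : A₁.subtype = A₂.subtype.comp (Submodule.inclusion h) := rfl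
  rw [h1, LinearMap.rTensor_comp]
  exact LinearMap.range_comp_le_range _ _

/-- every tensor has its coefficients in a finitely generated submodule -/
theorem s35asm_exists_fg_coeff (v : A ⊗[R] T) :
    ∃ A₀ : Submodule R A, A₀.FG ∧ v ∈ LinearMap.range (A₀.subtype.rTensor T) := by
  induction v using TensorProduct.induction_on with
  | zero => exact ⟨⊥, Submodule.fg_bot, Submodule.zero_mem _⟩
  | tmul a t =>
    refine ⟨Submodule.span R {a}, Submodule.fg_span_singleton a,
      ⟨(⟨a, Submodule.mem_span_singleton_self a⟩ : Submodule.span R {a}) ⊗ₜ[R] t, ?_⟩⟩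
    rw [LinearMap.rTensor_tmul]
    rfl
  | add v₁ v₂ h₁ h₂ =>
    obtain ⟨A₁, hA₁, hv₁⟩ := h₁
    obtain ⟨A₂, hA₂, hv₂⟩ := h₂
    exact ⟨A₁ ⊔ A₂, hA₁.sup hA₂, Submodule.add_mem _
      (s35asm_range_rTensor_mono le_sup_left hv₁) (s35asm_range_rTensor_mono le_sup_right hv₂)⟩

end

/-- **common kernels and base change.** -/
theorem s35asm_tensor_fixed {R : Type*} [CommRing R] [IsDomain R] [IsPrincipalIdealRing R]
    {A : Type*} [AddCommGroup A] [Module R A] [Module.IsTorsionFree R A]
    {T : Type*} [AddCommGroup T] [Module R T] [Module.Flat R T]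
    {ι' : Type*} (E : ι' → T →ₗ[R] T) (v : A ⊗[R] T) (hv0 : v ≠ 0)
    (hv : ∀ i, (E i).lTensor A v = 0) : ∃ t : T, t ≠ 0 ∧ ∀ i, E i t = 0 := by
  obtain ⟨A₀, hfg, v₀, rfl⟩ := s35asm_exists_fg_coeff v
  have hv₀ : v₀ ≠ 0 := fun h => hv0 (by rw [h, map_zero])
  haveI : Module.Finite R A₀ := Module.Finite.iff_fg.mpr hfg
  haveI : Module.Free R A₀ := Module.free_of_finite_type_torsion_free'
  let e : Module.Basis (Fin (finrank R A₀)) R A₀ := Module.finBasis R A₀
  let ψ : A₀ ⊗[R] T ≃ₗ[R] (Fin (finrank R A₀) →₀ T) := TensorProduct.equivFinsuppOfBasisLeft e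
  -- injectivity
  have hinj : Function.Injective (A₀.subtype.rTensor T) :=
    Module.Flat.rTensor_preserves_injective_linearMap _ A₀.injective_subtype
  -- the `E i` kill `v₀`
  have h1 : ∀ i, (E i).lTensor A₀ v₀ = 0 := by
    intro i
    apply hinj
    rw [map_zero]
    have h2 : (A₀.subtype.rTensor T) ((E i).lTensor A₀ v₀) =
        (E i).lTensor A ((A₀.subtype.rTensor T) v₀) := by
      rw [← LinearMap.comp_apply, ← LinearMap.comp_apply, LinearMap.rTensor_comp_lTensor,
        LinearMap.lTensor_comp_rTensor]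
    rw [h2]
    exact hv i
  -- componentwise
  have h3 : ∀ (i : ι') (x : A₀ ⊗[R] T) (j : Fin (finrank R A₀)),
      ψ ((E i).lTensor A₀ x) j = E i (ψ x j) := by
    intro i x j
    induction x using TensorProduct.induction_on with
    | zero => simp
    | tmul a t =>
      rw [LinearMap.lTensor_tmul]
      show (TensorProduct.equivFinsuppOfBasisLeft e (a ⊗ₜ[R] E i t)) j =
        E i ((TensorProduct.equivFinsuppOfBasisLeft e (a ⊗ₜ[R] t)) j)
      rw [TensorProduct.equivFinsuppOfBasisLeft_apply_tmul_apply,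
        TensorProduct.equivFinsuppOfBasisLeft_apply_tmul_apply, map_smul]
    | add x₁ x₂ h₁ h₂ =>
      rw [map_add, map_add, map_add, Finsupp.add_apply, Finsupp.add_apply, h₁, h₂, map_add]
  -- a nonzero component
  have h4 : ψ v₀ ≠ 0 := fun h => hv₀ (ψ.injective (by rw [h, map_zero]))
  obtain ⟨j, hj⟩ : ∃ j, ψ v₀ j ≠ 0 := by
    by_contra hcon
    push Not at hcon
    exact h4 (Finsupp.ext hcon)
  refine ⟨ψ v₀ j, hj, fun i => ?_⟩
  rw [← h3, h1 i, map_zero, Finsupp.zero_apply]

end Fermat.Agent.G
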