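import Mathlib
import Fermat.Agent.G.Adic.OfTate
import Fermat.Agent.S35.Asm.Kolchin
import Fermat.Agent.S35.Asm.TensorFix

/-!
# S35 (zero-regret prework): the STRONG `p`-adic engine, exponent-free form  (helper2)

`s35asm_of_tate` is `gad_of_tate` (G/Adic/OfTate.lean, abstract in the group `J`) with ONE more
conclusion: for every prime `q ≠ p` (which MAY divide the level) and every Frobenius lift `s` at `q`
such that some power of `(s² - 1)(s² - q²)` kills `J[p^∞]`,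
`charpoly ρ'(s) = X² ∓ (q + 1) X + q`.

Proof of the new clause (`s35asm_trace_of_phi`): on the lattice `Λ` the engine knows
`ρ(s)² = t ρ(s) - q` (`gad_exists_quadratic` + `d(s) = q`) and `charpoly ρ'(s) = X² - t X + q`;
the polynomial identity `(X²-1)(X²-q²) = (t²-(q+1)²) X² + (X² - tX + q)(X² + tX + q)` gives
`((s²-1)(s²-q²))^m = (t²-(q+1)²)^m s^{2m}` on `Λ`; `s` is invertible and `Λ ≠ 0` is torsion-free, so
`t² = (q+1)²`.

The operator is written `s35asmPhi x q = (x * x - 1) * (x * x - q ^ 2)` in ANY ring (`q` a natural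
number cast), so that it is transported by ring homomorphisms (`map_s35asmPhi`) and by intertwining
families of additive maps (`S35asmTw`: `T → J` through the components `ev n`, `Λ → Λ₀` through the
inclusion).
-/

set_option autoImplicit false
set_option linter.style.haveILetI false
set_option linter.unusedVariables false
set_option linter.unusedSectionVars false

noncomputable section

namespace Fermat.Agent.G

open Polynomial IsLocalRing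
open scoped TensorProduct

local notation "Qb" => AlgebraicClosure ℚ
local notation "GQ" => (AlgebraicClosure ℚ ≃ₐ[ℚ] AlgebraicClosure ℚ)

/-! ### the operator `(x² - 1)(x² - q²)` -/

/-- `(x² - 1)(x² - q²)` in a ring -/
def s35asmPhi {E : Type*} [Ring E] (x : E) (q : ℕ) : E :=
  (x * x - 1) * (x * x - ((q ^ 2 : ℕ) : E))

theorem map_s35asmPhi {E E' : Type*} [Ring E] [Ring E'] (f : E →+* E') (x : E) (q : ℕ) :
    f (s35asmPhi x q) = s35asmPhi (f x) q := by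
  unfold s35asmPhi
  rw [map_mul, map_sub, map_sub, map_mul, map_one, map_natCast]

/-- `((x²-1)(x²-q²))^(a+b) = ((x²-1)^b (x²-q²)^a) ((x²-q²)^b (x²-1)^a)` -/
theorem s35asmPhi_pow_add {E : Type*} [Ring E] (x : E) (q a b : ℕ) :
    s35asmPhi x q ^ (a + b) =
      ((x * x - 1) ^ b * (x * x - ((q ^ 2 : ℕ) : E)) ^ a) *
        ((x * x - ((q ^ 2 : ℕ) : E)) ^ b * (x * x - 1) ^ a) := by
  set A1 : E := x * x - 1 with hA1
  set A2 : E := x * x - ((q ^ 2 : ℕ) : E) with hA2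
  have hcomm : Commute A1 A2 := by
    have h1 : Commute (x * x) (x * x) := Commute.refl _
    have h2 : Commute (x * x) ((q ^ 2 : ℕ) : E) := Nat.commute_cast (x * x) (q ^ 2)
    have h3 : Commute (1 : E) (x * x) := Commute.one_left _
    have h4 : Commute (1 : E) ((q ^ 2 : ℕ) : E) := Commute.one_left _
    exact (h1.sub_right h2).sub_left (h3.sub_right h4)
  have e1 : Commute (A1 ^ a) (A1 ^ b) := (Commute.refl A1).pow_pow a b
  have e3 : Commute (A1 ^ a) (A2 ^ a * A2 ^ b) :=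
    (hcomm.pow_pow a a).mul_right (hcomm.pow_pow a b)
  show (A1 * A2) ^ (a + b) = _
  rw [hcomm.mul_pow, pow_add, pow_add]
  calc A1 ^ a * A1 ^ b * (A2 ^ a * A2 ^ b)
      = A1 ^ b * A1 ^ a * (A2 ^ a * A2 ^ b) := by rw [e1.eq]
    _ = A1 ^ b * (A1 ^ a * (A2 ^ a * A2 ^ b)) := by rw [mul_assoc]
    _ = A1 ^ b * ((A2 ^ a * A2 ^ b) * A1 ^ a) := by rw [e3.eq]
    _ = (A1 ^ b * A2 ^ a) * (A2 ^ b * A1 ^ a) := by simp only [mul_assoc]

/-! ### intertwined pairs -/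

section Tw

variable {ι : Type*} {E₁ E₂ : Type*} [Ring E₁] [Ring E₂] {M₁ M₂ : Type*} [AddCommGroup M₁]
  [AddCommGroup M₂] [Module E₁ M₁] [Module E₂ M₂] (π : ι → M₁ →+ M₂)

/-- `f` (acting on `M₁`) and `g` (acting on `M₂`) are intertwined by the additive maps `π i` -/
def S35asmTw (f : E₁) (g : E₂) : Prop := ∀ (i : ι) (x : M₁), π i (f • x) = g • π i x

variable {π}

theorem S35asmTw.mul {f f' : E₁} {g g' : E₂} (h : S35asmTw π f g) (h' : S35asmTw π f' g') :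
    S35asmTw π (f * f') (g * g') := fun i x => by
  rw [mul_smul, mul_smul, h, h']

theorem S35asmTw.sub {f f' : E₁} {g g' : E₂} (h : S35asmTw π f g) (h' : S35asmTw π f' g') :
    S35asmTw π (f - f') (g - g') := fun i x => by
  rw [sub_smul, sub_smul, map_sub, h, h']

theorem S35asmTw.one : S35asmTw π (1 : E₁) (1 : E₂) := fun i x => by
  rw [one_smul, one_smul]

theorem S35asmTw.natCast (k : ℕ) : S35asmTw π ((k : ℕ) : E₁) ((k : ℕ) : E₂) := fun i x => by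
  rw [Nat.cast_smul_eq_nsmul, Nat.cast_smul_eq_nsmul, map_nsmul]

theorem S35asmTw.pow {f : E₁} {g : E₂} (h : S35asmTw π f g) (m : ℕ) :
    S35asmTw π (f ^ m) (g ^ m) := by
  induction m with
  | zero => rw [pow_zero, pow_zero]; exact S35asmTw.one
  | succ m ih => rw [pow_succ, pow_succ]; exact ih.mul h

theorem S35asmTw.phi {f : E₁} {g : E₂} (h : S35asmTw π f g) (q : ℕ) :
    S35asmTw π (s35asmPhi f q) (s35asmPhi g q) :=
  ((h.mul h).sub S35asmTw.one).mul ((h.mul h).sub (S35asmTw.natCast (q ^ 2)))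

end Tw

/-! ### the algebra of the new clause -/

section Alg

variable {R : Type*} [CommRing R] [IsDomain R] {Λ : Type*} [AddCommGroup Λ] [Module R Λ]
  [Module.Free R Λ]

/-- **the Frobenius algebra of the strong engine.** -/
theorem s35asm_trace_of_phi [Nontrivial Λ] (g : Module.End R Λ) (hg : IsUnit g) (t : R) (q : ℕ)
    (h : g * g - t • g + (q : R) • (1 : Module.End R Λ) = 0) (m : ℕ)
    (hm : s35asmPhi g q ^ m = 0) : t = (q : R) + 1 ∨ t = -((q : R) + 1) := by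
  haveI : Module.IsTorsionFree R Λ := inferInstance
  set k : R := t ^ 2 - ((q : R) + 1) ^ 2 with hk
  -- the polynomial identity
  have key : ((X * X - 1) * (X * X - C ((q : R) ^ 2)) : R[X]) =
      C k * (X * X) + (X * X - C t * X + C (q : R)) * (X * X + C t * X + C (q : R)) := by
    rw [hk]
    simp only [map_sub, map_add, map_pow, map_one]
    ring
  have hqE : ((q ^ 2 : ℕ) : Module.End R Λ) = ((q : R) ^ 2) • (1 : Module.End R Λ) := by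
    rw [← Algebra.algebraMap_eq_smul_one, ← Nat.cast_pow, map_natCast]
  have h2 := congrArg (aeval g) key
  simp only [map_mul, map_sub, map_add, map_pow, map_one, aeval_X, aeval_C,
    Algebra.algebraMap_eq_smul_one] at h2
  have h3 : g * g - (t • (1 : Module.End R Λ)) * g + (q : R) • (1 : Module.End R Λ) = 0 := by
    rw [smul_mul_assoc, one_mul]
    exact h
  rw [h3, zero_mul, add_zero, smul_mul_assoc, one_mul, _root_.smul_pow, one_pow] at h2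
  have h4 : s35asmPhi g q = k • (g * g) := by
    unfold s35asmPhi
    rw [hqE]
    exact h2
  rw [h4, _root_.smul_pow] at hm
  -- `g` is invertible
  have hu : IsUnit ((g * g) ^ m) := (hg.mul hg).pow m
  obtain ⟨u, hu⟩ := hu
  have h5 : (k ^ m) • (1 : Module.End R Λ) = 0 := by
    have := congrArg (fun x => x * ((u⁻¹ : (Module.End R Λ)ˣ) : Module.End R Λ)) hm
    simp only [smul_mul_assoc, zero_mul] at this
    rwa [← hu, Units.mul_inv] at this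
  obtain ⟨w, hw⟩ := exists_ne (0 : Λ)
  have h6 : (k ^ m) • w = 0 := by
    have := LinearMap.congr_fun h5 w
    simpa using this
  have h7 : k = 0 := by
    rcases smul_eq_zero.mp h6 with h8 | h8
    · exact eq_zero_of_pow_eq_zero h8
    · exact absurd h8 hw
  have h9 : (t - ((q : R) + 1)) * (t + ((q : R) + 1)) = 0 := by
    rw [← h7, hk]
    ring
  rcases mul_eq_zero.mp h9 with h10 | h10
  · exact Or.inl (sub_eq_zero.mp h10)
  · exact Or.inr (eq_neg_of_add_eq_zero_left h10)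

end Alg

/-! ### the conclusion -/

/-- the conclusion of S30 together with the statement at the Frobenius lifts `s` at primes `q ≠ p`
for which the hypothesis `B q s` holds -/
def S35asmConcl (p : ℕ) (N : ℕ) (S : Finset ℕ) (𝒪' : Type) [CommRing 𝒪'] (a : ℕ → 𝒪')
    (B : ℕ → GQ → Prop) (U : ℕ → ValuationSubring Qb → Prop) : Prop :=
  ∃ (𝒪'' : Type) (_ : CommRing 𝒪'') (_ : IsDomain 𝒪'') (_ : IsDiscreteValuationRing 𝒪'')
    (_ : IsAdicComplete (maximalIdeal 𝒪'') 𝒪'') (_ : Finite (ResidueField 𝒪''))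
    (_ : CharZero 𝒪'') (_ : Algebra 𝒪' 𝒪'') (_ : Module.Finite 𝒪' 𝒪'')
    (_ : IsLocalHom (algebraMap 𝒪' 𝒪'')),
    Function.Injective (algebraMap 𝒪' 𝒪'') ∧
    ∃ ρ' : GaloisRepAdic 𝒪'',
      (∀ ℓ : ℕ, ℓ.Prime → ¬ ℓ ∣ N → ℓ ∉ S → ∀ A : ValuationSubring Qb,
        A.LiesOverPrime ℓ → ∀ σ : GQ, A.IsFrobeniusAt σ ℓ →
          LinearMap.charpoly (ρ'.ρ σ) =
            X ^ 2 - C (algebraMap 𝒪' 𝒪'' (a ℓ)) * X + C ((ℓ : 𝒪''))) ∧
      (∀ q : ℕ, q.Prime → ¬ q ∣ N → q ≠ p → ρ'.IsUnramifiedAt q) ∧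
      (∀ q : ℕ, q.Prime → q ≠ p → ∀ A : ValuationSubring Qb, A.LiesOverPrime q →
        ∀ s : GQ, A.IsFrobeniusAt s q → B q s →
          (LinearMap.charpoly (ρ'.ρ s) = X ^ 2 - C ((q : 𝒪'') + 1) * X + C ((q : 𝒪'')) ∨
            LinearMap.charpoly (ρ'.ρ s) = X ^ 2 + C ((q : 𝒪'') + 1) * X + C ((q : 𝒪'')))) ∧
      ∀ q : ℕ, q.Prime → q ≠ p → ∀ A : ValuationSubring Qb, A.LiesOverPrime q → U q A →
        ¬ ∀ σ ∈ A.inertiaSubgroupIn ℚ, LinearMap.charpoly (ρ'.ρ σ) = (X - 1) ^ 2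

theorem S35asmConcl.mono {p N : ℕ} {S : Finset ℕ} {𝒪' : Type} [CommRing 𝒪'] {a : ℕ → 𝒪'}
    {B B' : ℕ → GQ → Prop} {U U' : ℕ → ValuationSubring Qb → Prop}
    (h : S35asmConcl p N S 𝒪' a B U) (hB : ∀ q s, B' q s → B q s)
    (hU : ∀ q A, U' q A → U q A) :
    S35asmConcl p N S 𝒪' a B' U' := by
  obtain ⟨𝒪'', i1, i2, i3, i4, i5, i6, i7, i8, i9, hinj, ρ', h1, h2, h3, h4⟩ := h
  exact ⟨𝒪'', i1, i2, i3, i4, i5, i6, i7, i8, i9, hinj, ρ', h1, h2,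
    fun q hq hqp A hA s hs hB' => h3 q hq hqp A hA s hs (hB q s hB'),
    fun q hq hqp A hA hU' => h4 q hq hqp A hA (hU q A hU')⟩

/-! ### the engine on a lattice -/

/-- **the strong engine on a lattice** (`gad_main` with the new clause). -/
theorem s35asm_engine_main (p : ℕ) [Fact p.Prime] (N : ℕ) (hN : N ≠ 0) (S : Finset ℕ)
    (hpS : p ∈ S)
    (𝒪' : Type) [CommRing 𝒪'] [IsDomain 𝒪'] [IsDiscreteValuationRing 𝒪']
    [IsAdicComplete (maximalIdeal 𝒪') 𝒪'] [Finite (ResidueField 𝒪')] [CharZero 𝒪']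
    (hp : (p : 𝒪') ∈ maximalIdeal 𝒪')
    {Λ : Type} [AddCommGroup Λ] [Module 𝒪' Λ] [Module.Free 𝒪' Λ] [Module.Finite 𝒪' Λ]
    [Nontrivial Λ] (ρ : GQ →* Module.End 𝒪' Λ) (hcont : GaloisActionIsAdicContinuous 𝒪' ρ)
    (a : ℕ → 𝒪')
    (hunr : ∀ q : ℕ, q.Prime → ¬ q ∣ N → q ≠ p → ∀ A : ValuationSubring Qb,
      A.LiesOverPrime q → ∀ σ ∈ A.inertiaSubgroupIn ℚ, ρ σ = 1)
    (hfrob : ∀ ℓ : ℕ, ℓ.Prime → ¬ ℓ ∣ N → ℓ ∉ S → ∀ A : ValuationSubring Qb,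
      A.LiesOverPrime ℓ → ∀ σ : GQ, A.IsFrobeniusAt σ ℓ →
        ρ σ * ρ σ - a ℓ • ρ σ + (ℓ : 𝒪') • (1 : Module.End 𝒪' Λ) = 0) :
    S35asmConcl p N S 𝒪' a (fun q s => ∃ m : ℕ, s35asmPhi (ρ s) q ^ m = 0)
      (fun _ A => ¬ ∃ v : Λ, v ≠ 0 ∧ ∀ σ ∈ A.inertiaSubgroupIn ℚ, ρ σ v = v) := by
  classical
  have hpp : p.Prime := Fact.out
  set 𝔪 : Ideal 𝒪' := maximalIdeal 𝒪' with h𝔪
  obtain ⟨d, hd⟩ := gad_exists_cyclo p 𝒪' hp
  have hq := gad_exists_quadratic p N hN S hpS 𝒪' hp ρ hcont a hfrob d hd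
  choose t ht using hq
  have hzero : ∀ x : 𝒪', (∀ n : ℕ, x ∈ Ideal.span {((p ^ n : ℕ) : 𝒪')}) → x = 0 := by
    intro x hx
    apply IsHausdorff.haus (inferInstance : IsHausdorff 𝔪 𝒪')
    intro n
    rw [SModEq.zero, smul_eq_mul, Ideal.mul_top]
    exact gad_natCast_pow_mem p 𝒪' hp n (hx n)
  have hdfrob : ∀ ℓ : ℕ, ℓ.Prime → ℓ ≠ p → ∀ A : ValuationSubring Qb, A.LiesOverPrime ℓ →
      ∀ σ : GQ, A.IsFrobeniusAt σ ℓ → ((d σ : 𝒪'ˣ) : 𝒪') = (ℓ : 𝒪') := by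
    intro ℓ hℓ hℓp A hA σ hσ
    rw [← sub_eq_zero]
    exact hzero _ fun n => hd n σ ℓ fun ζ hζ => (gad_frob_root p hℓ hℓp A hA n ζ hζ).1 σ hσ
  have hdin : ∀ q : ℕ, q.Prime → q ≠ p → ∀ A : ValuationSubring Qb, A.LiesOverPrime q →
      ∀ σ ∈ A.inertiaSubgroupIn ℚ, d σ = 1 := by
    intro q hq hqp A hA σ hσ
    apply Units.ext
    rw [Units.val_one, ← sub_eq_zero]
    apply hzero
    intro n
    have := hd n σ 1 fun ζ hζ => by
      rw [pow_one]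
      exact (gad_frob_root p hq hqp A hA n ζ hζ).2 σ hσ
    simpa using this
  set r : ℕ := Module.finrank 𝒪' Λ with hr
  haveI : NeZero r := ⟨(Module.finrank_pos (R := 𝒪') (M := Λ)).ne'⟩
  let b : Module.Basis (Fin r) 𝒪' Λ := Module.finBasis 𝒪' Λ
  let M : GQ →* Matrix (Fin r) (Fin r) 𝒪' :=
    ((LinearMap.toMatrixAlgEquiv b : Module.End 𝒪' Λ ≃ₐ[𝒪'] Matrix (Fin r) (Fin r) 𝒪') :
      Module.End 𝒪' Λ →* Matrix (Fin r) (Fin r) 𝒪').comp ρ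
  have hMdef : ∀ g, M g = LinearMap.toMatrixAlgEquiv b (ρ g) := fun g => rfl
  have hM : ∀ g, M g * M g = t g • M g - ((d g : 𝒪'ˣ) : 𝒪') • (1 : Matrix (Fin r) (Fin r) 𝒪') := by
    intro g
    have h1 := congrArg (LinearMap.toMatrixAlgEquiv b) (ht g)
    have e1 : LinearMap.toMatrixAlgEquiv b
        (ρ g * ρ g - t g • ρ g + ((d g : 𝒪'ˣ) : 𝒪') • (1 : Module.End 𝒪' Λ)) =
        M g * M g - t g • M g + ((d g : 𝒪'ˣ) : 𝒪') • (1 : Matrix (Fin r) (Fin r) 𝒪') := by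
      refine (map_add (LinearMap.toMatrixAlgEquiv b) _ _).trans ?_
      rw [map_smul, map_one]
      congr 1
      refine (map_sub (LinearMap.toMatrixAlgEquiv b) _ _).trans ?_
      rw [map_mul, map_smul]
      rfl
    rw [e1, map_zero] at h1
    rw [← sub_eq_zero, ← h1]
    abel
  have hMone : ∀ g, ρ g = 1 → M g = 1 := by
    intro g hg
    rw [hMdef, hg, map_one]
  have hMsmall : ∀ (g : GQ) (n : ℕ), (∀ v : Λ, ρ g v - v ∈ (𝔪 ^ n) • (⊤ : Submodule 𝒪' Λ)) →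
      ∀ i k, (M g - 1) i k ∈ 𝔪 ^ n := by
    intro g n hg i k
    have h1 : (M g - 1) i k = b.coord i (ρ g (b k) - b k) := by
      rw [Matrix.sub_apply, hMdef, LinearMap.toMatrixAlgEquiv_apply, map_sub,
        Module.Basis.coord_apply, Module.Basis.coord_apply, Module.Basis.repr_self,
        Matrix.one_apply, Finsupp.single_apply]
      congr 1
      by_cases hik : i = k
      · rw [if_pos hik, if_pos hik.symm]
      · rw [if_neg hik, if_neg (Ne.symm hik)]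
    rw [h1]
    exact gad_functional_mem (b.coord i) (hg (b k))
  obtain ⟨𝒪'', i1, i2, i3, i4, i5, i6, i7, i8, i9, hinj, P, hchar, hone, hsm⟩ :=
    gad_main_matrix 𝒪' M t d hM
  have hPcont : GadmCont P := by
    intro n
    obtain ⟨L, hLfd, hL⟩ := hcont n
    haveI := hLfd
    obtain ⟨E, hEfd, hLE, hE⟩ := gadm_exists_level L (p ^ n) (pow_ne_zero _ hpp.ne_zero)
    refine ⟨E, hEfd, fun σ hσ => ?_⟩
    apply hsm σ n
    · exact hMsmall σ n (hL σ fun x hx => hσ x (hLE hx))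
    · have := hd n σ 1 fun ζ hζ => by rw [pow_one]; exact hE σ hσ ζ hζ
      have h2 := gad_natCast_pow_mem p 𝒪' hp n this
      simpa using h2
  have hunit : ∀ g : GQ, IsUnit (ρ g) := fun g => (Group.isUnit g).map ρ
  refine ⟨𝒪'', i1, i2, i3, i4, i5, i6, i7, i8, i9, hinj, gadmOfMatrix P hPcont, ?_, ?_, ?_, ?_⟩
  · intro ℓ hℓ hℓN hℓS A hA σ hσ
    have hℓp : ℓ ≠ p := fun h => hℓS (h ▸ hpS)
    have hdσ := hdfrob ℓ hℓ hℓp A hA σ hσ
    have h1 := ht σ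
    have h2 := hfrob ℓ hℓ hℓN hℓS A hA σ hσ
    rw [hdσ] at h1
    have h3 : (t σ - a ℓ) • ρ σ = 0 := by
      rw [sub_smul]
      have h4 : ρ σ * ρ σ - a ℓ • ρ σ + (ℓ : 𝒪') • (1 : Module.End 𝒪' Λ) -
          (ρ σ * ρ σ - t σ • ρ σ + (ℓ : 𝒪') • (1 : Module.End 𝒪' Λ)) = 0 := by
        rw [h1, h2, sub_zero]
      rw [← h4]
      abel
    have h5 : t σ = a ℓ := by
      have h6 : (t σ - a ℓ) • (1 : Module.End 𝒪' Λ) = 0 := by
        have := congrArg (fun x => x * ρ σ⁻¹) h3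
        simp only [smul_mul_assoc, zero_mul] at this
        rwa [← map_mul, mul_inv_cancel, map_one] at this
      obtain ⟨w, hw⟩ := exists_ne (0 : Λ)
      have h7 : (t σ - a ℓ) • w = 0 := by
        have := LinearMap.congr_fun h6 w
        simpa using this
      rcases smul_eq_zero.mp h7 with h8 | h8
      · exact sub_eq_zero.mp h8
      · exact absurd h8 hw
    rw [gadmOfMatrix_charpoly, hchar σ, h5, hdσ, map_natCast]
  · intro q hq hqN hqp A hA σ hσ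
    exact gadmOfMatrix_eq_one P hPcont σ
      (hone σ (hMone σ (hunr q hq hqN hqp A hA σ hσ)) (hdin q hq hqp A hA σ hσ))
  · -- the new clause
    rintro q hq hqp A hA s hs ⟨m, hm⟩
    have hds := hdfrob q hq hqp A hA s hs
    have h1 := ht s
    rw [hds] at h1
    rcases s35asm_trace_of_phi (ρ s) (hunit s) (t s) q h1 m hm with h5 | h5
    · left
      rw [gadmOfMatrix_charpoly, hchar s, h5, hds, map_natCast, map_add, map_natCast, map_one]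
    · right
      rw [gadmOfMatrix_charpoly, hchar s, h5, hds, map_natCast, map_neg, map_add, map_natCast,
        map_one, map_neg, neg_mul, sub_neg_eq_add]
  · -- the Q-clause: unipotent inertia has a nonzero fixed vector on `Λ` (Kolchin)
    intro q hq hqp A hA hU huni
    apply hU
    have hsq : ∀ σ ∈ A.inertiaSubgroupIn ℚ, (ρ σ - 1) * (ρ σ - 1) = 0 := by
      intro σ hσ
      have hdσ : ((d σ : 𝒪'ˣ) : 𝒪') = 1 := by rw [hdin q hq hqp A hA σ hσ, Units.val_one]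
      have h1 := ht σ
      rw [hdσ] at h1
      have h2 := huni σ hσ
      rw [gadmOfMatrix_charpoly, hchar σ, hdσ, map_one] at h2
      -- compare the coefficients of `X`
      have h3 : algebraMap 𝒪' 𝒪'' (t σ) = 2 := by
        have e : ∀ u : 𝒪'', (X ^ 2 - C u * X + C (1 : 𝒪'') : 𝒪''[X]).coeff 1 = -u := by
          intro u
          rw [coeff_add, coeff_sub, coeff_X_pow, coeff_C_mul, coeff_X_one,
            coeff_C_ne_zero one_ne_zero, if_neg (by norm_num), mul_one, zero_sub, add_zero]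
        have h4 : (X ^ 2 - C (algebraMap 𝒪' 𝒪'' (t σ)) * X + C (1 : 𝒪'') : 𝒪''[X]).coeff 1 =
            ((X - 1) ^ 2 : 𝒪''[X]).coeff 1 := by rw [h2]
        have e2 : ((X - 1) ^ 2 : 𝒪''[X]) = X ^ 2 - C (2 : 𝒪'') * X + C (1 : 𝒪'') := by
          simp only [map_ofNat, map_one]
          ring
        rw [e2, e, e] at h4
        exact neg_injective h4
      have h5 : t σ = 2 := hinj (by rw [h3, map_ofNat])
      rw [h5] at h1
      have h6 : (ρ σ - 1) * (ρ σ - 1) = ρ σ * ρ σ - (2 : 𝒪') • ρ σ + (1 : 𝒪') • (1 : Module.End 𝒪' Λ) := by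
        rw [two_smul, one_smul]
        noncomm_ring
      rw [h6]
      exact h1
    exact s35asm_kolchin ρ (A.inertiaSubgroupIn ℚ) hsq

/-! ### the abstract core -/

/-- the statement of `s35asm_engine_main` (for fixed `p N S 𝒪'`), as a hypothesis -/
def S35asmMainHyp (p : ℕ) (N : ℕ) (S : Finset ℕ) (𝒪' : Type) [CommRing 𝒪'] [IsDomain 𝒪']
    [IsDiscreteValuationRing 𝒪'] : Prop :=
  ∀ {Λ : Type} [AddCommGroup Λ] [Module 𝒪' Λ] [Module.Free 𝒪' Λ] [Module.Finite 𝒪' Λ]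
    [Nontrivial Λ] (ρ : GQ →* Module.End 𝒪' Λ) (_ : GaloisActionIsAdicContinuous 𝒪' ρ)
    (a : ℕ → 𝒪')
    (_ : ∀ q : ℕ, q.Prime → ¬ q ∣ N → q ≠ p → ∀ A : ValuationSubring Qb,
      A.LiesOverPrime q → ∀ σ ∈ A.inertiaSubgroupIn ℚ, ρ σ = 1)
    (_ : ∀ ℓ : ℕ, ℓ.Prime → ¬ ℓ ∣ N → ℓ ∉ S → ∀ A : ValuationSubring Qb,
      A.LiesOverPrime ℓ → ∀ σ : GQ, A.IsFrobeniusAt σ ℓ →
        ρ σ * ρ σ - a ℓ • ρ σ + (ℓ : 𝒪') • (1 : Module.End 𝒪' Λ) = 0),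
    S35asmConcl p N S 𝒪' a (fun q s => ∃ m : ℕ, s35asmPhi (ρ s) q ^ m = 0)
      (fun _ A => ¬ ∃ v : Λ, v ≠ 0 ∧ ∀ σ ∈ A.inertiaSubgroupIn ℚ, ρ σ v = v)

/-- `gadt_core` with the new clause. -/
theorem s35asm_engine_core (p : ℕ) [Fact p.Prime] (N : ℕ) (S : Finset ℕ)
    (𝒪' : Type) [CommRing 𝒪'] [IsDomain 𝒪'] [IsDiscreteValuationRing 𝒪'] [CharZero 𝒪']
    (hp : (p : 𝒪') ∈ maximalIdeal 𝒪')
    (Λ₀ : Type) [AddCommGroup Λ₀] [Module 𝒪' Λ₀] [Module.Free 𝒪' Λ₀] [Module.Finite 𝒪' Λ₀]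
    (ρ₀ : GQ →* Module.End 𝒪' Λ₀) (t₀ : ℕ → Module.End 𝒪' Λ₀) (a : ℕ → 𝒪')
    (hcomm₀ : ∀ (ℓ : ℕ) (σ : GQ), ρ₀ σ * t₀ ℓ = t₀ ℓ * ρ₀ σ)
    (hcont₀ : ∀ n : ℕ, ∃ L : IntermediateField ℚ Qb, FiniteDimensional ℚ L ∧
      ∀ σ : GQ, (∀ y ∈ L, σ y = y) → ∀ v : Λ₀, ∃ u : Λ₀, ρ₀ σ v - v = (p ^ n : ℕ) • u)
    (hunr₀ : ∀ q : ℕ, q.Prime → ¬ q ∣ N → q ≠ p → ∀ A : ValuationSubring Qb,
      A.LiesOverPrime q → ∀ σ ∈ A.inertiaSubgroupIn ℚ, ρ₀ σ = 1)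
    (hfrob₀ : ∀ ℓ : ℕ, ℓ.Prime → ¬ ℓ ∣ N → ℓ ∉ S → ∀ A : ValuationSubring Qb,
      A.LiesOverPrime ℓ → ∀ σ : GQ, A.IsFrobeniusAt σ ℓ →
        ρ₀ σ * ρ₀ σ - t₀ ℓ * ρ₀ σ + (ℓ : 𝒪') • (1 : Module.End 𝒪' Λ₀) = 0)
    (hv : ∃ v : Λ₀, v ≠ 0 ∧ ∀ ℓ : ℕ, ℓ.Prime → ¬ ℓ ∣ N → ℓ ∉ S → t₀ ℓ v = a ℓ • v)
    (hmain : S35asmMainHyp p N S 𝒪') :
    S35asmConcl p N S 𝒪' a (fun q s => ∃ m : ℕ, s35asmPhi (ρ₀ s) q ^ m = 0)
      (fun _ A => ¬ ∃ v : Λ₀, v ≠ 0 ∧ ∀ σ ∈ A.inertiaSubgroupIn ℚ, ρ₀ σ v = v) := by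
  -- the eigen-submodule
  let ι : Type := {ℓ : ℕ // ℓ.Prime ∧ ¬ ℓ ∣ N ∧ ℓ ∉ S}
  let Λ : Submodule 𝒪' Λ₀ := gadtEigen (fun i : ι => t₀ i.1) (fun i : ι => a i.1)
  have hΛ : ∀ v : Λ₀, v ∈ Λ ↔ ∀ ℓ : ℕ, ℓ.Prime → ¬ ℓ ∣ N → ℓ ∉ S → t₀ ℓ v = a ℓ • v := by
    intro v
    constructor
    · intro h ℓ h1 h2 h3
      exact h ⟨ℓ, h1, h2, h3⟩
    · intro h i
      exact h i.1 i.2.1 i.2.2.1 i.2.2.2
  have hst : ∀ σ : GQ, ∀ v ∈ Λ, ρ₀ σ v ∈ Λ := fun σ v hv' =>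
    gadt_eigen_stable (ρ₀ σ) (fun i => hcomm₀ i.1 σ) hv'
  haveI : Nontrivial Λ := by
    obtain ⟨v, hv0, hv1⟩ := hv
    exact ⟨⟨⟨v, (hΛ v).2 hv1⟩, 0, fun h => hv0 (congrArg Subtype.val h)⟩⟩
  have hpn : ∀ n : ℕ, ((p : 𝒪') ^ n) ≠ 0 := fun n =>
    pow_ne_zero n (by exact_mod_cast (Fact.out : p.Prime).ne_zero)
  refine (hmain (Λ := Λ) (gadtRestrict ρ₀ Λ hst) ?_ a ?_ ?_).mono ?_ ?_
  · -- continuity
    intro n
    obtain ⟨L, hL, hLσ⟩ := hcont₀ n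
    refine ⟨L, hL, fun σ hσ v => ?_⟩
    obtain ⟨u, hu⟩ := hLσ σ hσ (v : Λ₀)
    have hu' : ρ₀ σ (v : Λ₀) - (v : Λ₀) = ((p : 𝒪') ^ n) • u := by
      rw [hu, ← Nat.cast_smul_eq_nsmul 𝒪', Nat.cast_pow]
    have hmem : ((p : 𝒪') ^ n) • u ∈ Λ := by
      rw [← hu']
      exact Λ.sub_mem (hst σ _ v.2) v.2
    have huΛ : u ∈ Λ := gadt_eigen_saturated (hpn n) hmem
    have heq : gadtRestrict ρ₀ Λ hst σ v - v = ((p : 𝒪') ^ n) • (⟨u, huΛ⟩ : Λ) := by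
      apply Subtype.ext
      exact hu'
    rw [heq]
    exact Submodule.smul_mem_smul (Ideal.pow_mem_pow hp n) Submodule.mem_top
  · -- unramified
    intro q hq hqN hqp A hA σ hσ
    ext v
    have := hunr₀ q hq hqN hqp A hA σ hσ
    show ρ₀ σ (v : Λ₀) = (v : Λ₀)
    rw [this]
    rfl
  · -- Frobenius
    intro ℓ hℓ hℓN hℓS A hA σ hσ
    ext v
    have h1 := hfrob₀ ℓ hℓ hℓN hℓS A hA σ hσ
    have h2 := congrArg (fun f : Module.End 𝒪' Λ₀ => f (v : Λ₀)) h1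
    have h3 : t₀ ℓ (ρ₀ σ (v : Λ₀)) = a ℓ • ρ₀ σ (v : Λ₀) :=
      (hΛ _).1 (hst σ _ v.2) ℓ hℓ hℓN hℓS
    simp only [LinearMap.add_apply, LinearMap.sub_apply, Module.End.mul_apply,
      LinearMap.smul_apply, Module.End.one_apply, LinearMap.zero_apply] at h2
    rw [h3] at h2
    simpa using h2
  · -- the new clause: restriction to the eigen-submodule
    rintro q s ⟨m, hm⟩
    refine ⟨m, ?_⟩
    have htw : S35asmTw (fun _ : Unit => Λ.subtype.toAddMonoidHom)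
        (gadtRestrict ρ₀ Λ hst s) (ρ₀ s) := fun _ v => rfl
    have h1 := (htw.phi q).pow m
    refine LinearMap.ext fun v => Subtype.ext ?_
    have h2 := h1 () v
    rw [hm] at h2
    exact h2
  · -- the Q-clause: a fixed vector of `Λ` is a fixed vector of `Λ₀`
    rintro q A hU ⟨v, hv0, hv⟩
    exact hU ⟨(v : Λ₀), fun h => hv0 (Subtype.ext h), fun σ hσ =>
      congrArg Subtype.val (hv σ hσ)⟩

/-! ### the Tate module part -/

/-- `gadt_of_tate_aux` with the new clause. -/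
theorem s35asm_engine_of_tate_aux (p : ℕ) [Fact p.Prime] (N : ℕ) (S : Finset ℕ)
    (𝒪' : Type) [CommRing 𝒪'] [IsDomain 𝒪'] [IsDiscreteValuationRing 𝒪'] [CharZero 𝒪']
    (hp : (p : 𝒪') ∈ maximalIdeal 𝒪') [Algebra ℤ_[p] 𝒪']
    {J : Type} [AddCommGroup J] [DistribMulAction GQ J] (𝒯 : GatTate p J)
    (hopen : ∀ x : J, (∃ n : ℕ, p ^ n • x = 0) → ∃ L : IntermediateField ℚ Qb,
      FiniteDimensional ℚ L ∧ ∀ σ : GQ, (∀ y ∈ L, σ y = y) → σ • x = x)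
    (Tℓ : ℕ → (J →+ J)) (hcomm : ∀ (ℓ : ℕ) (σ : GQ) (x : J), Tℓ ℓ (σ • x) = σ • Tℓ ℓ x)
    (a : ℕ → 𝒪')
    (hunr : ∀ q : ℕ, q.Prime → ¬ q ∣ N → q ≠ p → ∀ A : ValuationSubring Qb,
      A.LiesOverPrime q → ∀ σ ∈ A.inertiaSubgroupIn ℚ, ∀ x : J, (∃ n : ℕ, p ^ n • x = 0) →
        σ • x = x)
    (hfrob : ∀ ℓ : ℕ, ℓ.Prime → ¬ ℓ ∣ N → ℓ ∉ S → ∀ A : ValuationSubring Qb,
      A.LiesOverPrime ℓ → ∀ σ : GQ, A.IsFrobeniusAt σ ℓ → ∀ x : J, (∃ n : ℕ, p ^ n • x = 0) →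
        σ • σ • x - Tℓ ℓ (σ • x) + ℓ • x = 0)
    (hv : ∃ v : 𝒪' ⊗[ℤ_[p]] 𝒯.T, v ≠ 0 ∧ ∀ ℓ : ℕ, ℓ.Prime → ¬ ℓ ∣ N → ℓ ∉ S →
      ∀ w : 𝒯.T →ₗ[ℤ_[p]] 𝒯.T, (∀ (n : ℕ) (x : 𝒯.T), 𝒯.ev n (w x) = Tℓ ℓ (𝒯.ev n x)) →
        w.baseChange 𝒪' v = a ℓ • v)
    (hlift : ∀ f : J →+ J, ∃ w : 𝒯.T →ₗ[ℤ_[p]] 𝒯.T,
      ∀ (n : ℕ) (x : 𝒯.T), 𝒯.ev n (w x) = f (𝒯.ev n x))
    (hker : ∀ (n : ℕ) (x : 𝒯.T), 𝒯.ev n x = 0 → ∃ y : 𝒯.T, x = (p ^ n : ℕ) • y)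
    (hff : Module.Finite ℤ_[p] 𝒯.T ∧ Module.Free ℤ_[p] 𝒯.T)
    (hmain : S35asmMainHyp p N S 𝒪') :
    S35asmConcl p N S 𝒪' a (fun q s => ∃ m : ℕ, ∀ x : J, (∃ n : ℕ, p ^ n • x = 0) →
      (s35asmPhi (DistribMulAction.toAddMonoidEnd GQ J s) q ^ m) x = 0)
      (fun _ A => ∃ c : ℕ, c ≠ 0 ∧ ∀ x : J, (∃ n : ℕ, p ^ n • x = 0) →
        (∀ σ ∈ A.inertiaSubgroupIn ℚ, σ • x = x) → c • x = 0) := by
  obtain ⟨hfinT, hfreeT⟩ := hff
  haveI := hfinT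
  haveI := hfreeT
  have htors : ∀ (n : ℕ) (x : 𝒯.T), ∃ m : ℕ, p ^ m • 𝒯.ev n x = 0 := fun n x =>
    ⟨n, gadt_pow_smul_ev 𝒯 n x⟩
  -- the Hecke operators on `T`
  let tT : ℕ → Module.End ℤ_[p] 𝒯.T := fun ℓ => gadtLift 𝒯 hlift (Tℓ ℓ)
  have htT : ∀ (ℓ n : ℕ) (x : 𝒯.T), 𝒯.ev n (tT ℓ x) = Tℓ ℓ (𝒯.ev n x) := fun ℓ n x =>
    gadtLift_spec 𝒯 hlift (Tℓ ℓ) n x
  have hρT : ∀ (σ : GQ) (n : ℕ) (x : 𝒯.T), 𝒯.ev n (gadtRho 𝒯 hlift σ x) = σ • 𝒯.ev n x :=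
    gadtRho_spec 𝒯 hlift
  -- base change
  let ρ₀ : GQ →* Module.End 𝒪' (𝒪' ⊗[ℤ_[p]] 𝒯.T) :=
    { toFun := fun σ => (gadtRho 𝒯 hlift σ).baseChange 𝒪'
      map_one' := by rw [map_one]; exact LinearMap.baseChange_one _ _
      map_mul' := fun σ τ => by rw [map_mul]; exact LinearMap.baseChange_mul _ _ }
  have hρ₀ : ∀ σ : GQ, ρ₀ σ = (gadtRho 𝒯 hlift σ).baseChange 𝒪' := fun σ => rfl
  let t₀ : ℕ → Module.End 𝒪' (𝒪' ⊗[ℤ_[p]] 𝒯.T) := fun ℓ => (tT ℓ).baseChange 𝒪'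
  have ht₀ : ∀ ℓ : ℕ, t₀ ℓ = (tT ℓ).baseChange 𝒪' := fun ℓ => rfl
  refine (s35asm_engine_core p N S 𝒪' hp (𝒪' ⊗[ℤ_[p]] 𝒯.T) ρ₀ t₀ a ?_ ?_ ?_ ?_ ?_ hmain).mono
    ?_ ?_
  · -- commutation
    intro ℓ σ
    have h1 : gadtRho 𝒯 hlift σ * tT ℓ = tT ℓ * gadtRho 𝒯 hlift σ := by
      refine LinearMap.ext fun x => 𝒯.ext _ _ fun n => ?_
      rw [Module.End.mul_apply, Module.End.mul_apply, hρT, htT, htT, hρT, hcomm]
    rw [hρ₀, ht₀]
    have h2 := congrArg (LinearMap.baseChange 𝒪') h1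
    rw [LinearMap.baseChange_mul, LinearMap.baseChange_mul] at h2
    exact h2
  · -- continuity
    intro n
    obtain ⟨L, hL, hLσ⟩ := gadt_cont_T 𝒯 hlift hker hopen n
    exact ⟨L, hL, fun σ hσ v => gadt_baseChange_sub 𝒯 𝒪' _ _ (hLσ σ hσ) v⟩
  · -- inertia
    intro q hq hqN hqp A hA σ hσ
    have h1 : gadtRho 𝒯 hlift σ = 1 := by
      refine LinearMap.ext fun x => 𝒯.ext _ _ fun n => ?_
      rw [hρT, Module.End.one_apply]
      exact hunr q hq hqN hqp A hA σ hσ _ (htors n x)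
    rw [hρ₀, h1]
    exact LinearMap.baseChange_one _ _
  · -- Frobenius
    intro ℓ hℓ hℓN hℓS A hA σ hσ
    have h1 : ∀ x : 𝒯.T, gadtRho 𝒯 hlift σ (gadtRho 𝒯 hlift σ x) -
        tT ℓ (gadtRho 𝒯 hlift σ x) + ℓ • x = 0 := by
      intro x
      refine 𝒯.ext _ _ fun n => ?_
      rw [map_add, map_sub, map_nsmul, hρT, hρT, htT, hρT, map_zero]
      exact hfrob ℓ hℓ hℓN hℓS A hA σ hσ _ (htors n x)
    refine LinearMap.ext fun v => ?_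
    simp only [LinearMap.add_apply, LinearMap.sub_apply, Module.End.mul_apply,
      LinearMap.smul_apply, Module.End.one_apply, LinearMap.zero_apply]
    rw [hρ₀, ht₀]
    induction v using TensorProduct.induction_on with
    | zero => simp
    | tmul b x =>
      rw [LinearMap.baseChange_tmul, LinearMap.baseChange_tmul, LinearMap.baseChange_tmul,
        Nat.cast_smul_eq_nsmul, ← Nat.cast_smul_eq_nsmul ℤ_[p] ℓ (b ⊗ₜ[ℤ_[p]] x),
        ← TensorProduct.tmul_smul, Nat.cast_smul_eq_nsmul, ← TensorProduct.tmul_sub,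
        ← TensorProduct.tmul_add, h1 x, TensorProduct.tmul_zero]
    | add v₁ v₂ h₁ h₂ =>
      have : ∀ u₁ u₂ u₃ w₁ w₂ w₃ : 𝒪' ⊗[ℤ_[p]] 𝒯.T,
          (u₁ + w₁) - (u₂ + w₂) + (u₃ + w₃) = (u₁ - u₂ + u₃) + (w₁ - w₂ + w₃) := by
        intros; abel
      rw [map_add, map_add, map_add, smul_add, this, h₁, h₂, add_zero]
  · -- the eigenvector
    obtain ⟨v, hv0, hv1⟩ := hv
    exact ⟨v, hv0, fun ℓ h1 h2 h3 => hv1 ℓ h1 h2 h3 (tT ℓ) (htT ℓ)⟩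
  · -- the new clause: from `J` to `T` to `𝒪' ⊗ T`
    rintro q s ⟨m, hm⟩
    refine ⟨m, ?_⟩
    -- on `T`
    have htw : S35asmTw (fun n : ℕ => 𝒯.ev n) (gadtRho 𝒯 hlift s)
        (DistribMulAction.toAddMonoidEnd GQ J s) := fun n x => hρT s n x
    have h1 := (htw.phi q).pow m
    have h2 : s35asmPhi (gadtRho 𝒯 hlift s) q ^ m = 0 := by
      refine LinearMap.ext fun x => 𝒯.ext _ _ fun n => ?_
      rw [LinearMap.zero_apply, map_zero]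
      exact (h1 n x).trans (hm _ (htors n x))
    -- base change
    have h3 := congrArg (Module.End.baseChangeHom ℤ_[p] 𝒪' 𝒯.T) h2
    rw [map_pow, map_zero] at h3
    let φ : Module.End ℤ_[p] 𝒯.T →+* Module.End 𝒪' (𝒪' ⊗[ℤ_[p]] 𝒯.T) :=
      (Module.End.baseChangeHom ℤ_[p] 𝒪' 𝒯.T).toRingHom
    have h4 : φ (s35asmPhi (gadtRho 𝒯 hlift s) q) = s35asmPhi (φ (gadtRho 𝒯 hlift s)) q :=
      map_s35asmPhi (E := Module.End ℤ_[p] 𝒯.T) (E' := Module.End 𝒪' (𝒪' ⊗[ℤ_[p]] 𝒯.T)) φ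
        (gadtRho 𝒯 hlift s) q
    have h5 : φ (s35asmPhi (gadtRho 𝒯 hlift s) q) ^ m = 0 := h3
    rw [h4] at h5
    exact h5
  · -- the Q-clause: a fixed vector of `𝒪' ⊗ T` gives a fixed vector of `T`, hence fixed torsion
    -- classes of unbounded order
    rintro q A ⟨c, hc0, hc⟩ ⟨v, hv0, hv⟩
    have hpp : p.Prime := Fact.out
    -- `𝒪'` is torsion-free over `ℤ_[p]`
    have hinjO : Function.Injective (algebraMap ℤ_[p] 𝒪') := by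
      rw [injective_iff_map_eq_zero]
      intro x hx
      by_contra hx0
      obtain ⟨k, u, rfl⟩ : ∃ (k : ℕ) (u : ℤ_[p]ˣ), x = (u : ℤ_[p]) * (p : ℤ_[p]) ^ k :=
        ⟨_, _, PadicInt.unitCoeff_spec hx0⟩
      rw [map_mul, map_pow, map_natCast] at hx
      rcases mul_eq_zero.mp hx with h | h
      · exact ((u.map (algebraMap ℤ_[p] 𝒪' : ℤ_[p] →* 𝒪')).ne_zero) h
      · exact pow_ne_zero k (Nat.cast_ne_zero.mpr hpp.ne_zero) h
    haveI : Module.IsTorsionFree ℤ_[p] 𝒪' := Module.IsTorsionFree.of_smul_eq_zero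
      (fun c x h => by
        rw [Algebra.smul_def] at h
        rcases mul_eq_zero.mp h with h1 | h1
        · exact Or.inl (hinjO (by rw [h1, map_zero]))
        · exact Or.inr h1)
    -- a fixed vector of `T`
    obtain ⟨t, ht0, ht⟩ := s35asm_tensor_fixed
      (fun σ : A.inertiaSubgroupIn ℚ => gadtRho 𝒯 hlift (σ : GQ) - 1) v hv0 (by
        intro σ
        have h1 := hv (σ : GQ) σ.2
        rw [hρ₀] at h1
        have h2 : (gadtRho 𝒯 hlift (σ : GQ) - 1).lTensor 𝒪' v =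
            (gadtRho 𝒯 hlift (σ : GQ)).baseChange 𝒪' v - v := by
          rw [LinearMap.lTensor_sub, LinearMap.sub_apply, Module.End.one_eq_id,
            LinearMap.lTensor_id, LinearMap.id_apply]
          rfl
        rw [h2, h1, sub_self])
    have ht' : ∀ σ ∈ A.inertiaSubgroupIn ℚ, gadtRho 𝒯 hlift σ t = t := by
      intro σ hσ
      have := ht ⟨σ, hσ⟩
      rw [LinearMap.sub_apply, Module.End.one_apply, sub_eq_zero] at this
      exact this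
    -- its components are fixed torsion classes, killed by `c`
    apply ht0
    have h3 : c • t = 0 := by
      refine 𝒯.ext _ _ fun n => ?_
      rw [map_nsmul, map_zero]
      refine hc _ (htors n t) fun σ hσ => ?_
      rw [← hρT, ht' σ hσ]
    have h4 : ((c : ℤ_[p])) • t = 0 := by rw [Nat.cast_smul_eq_nsmul]; exact h3
    exact gat_isTorsionFree 𝒯 (c : ℤ_[p]) (Nat.cast_ne_zero.mpr hc0) t h4

/-- **the STRONG engine** = `gad_of_tate` with the new clause: for every Frobenius lift `s` at a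
prime `q ≠ p` such that a power of `(s² - 1)(s² - q²)` kills `J[p^∞]`,
`charpoly ρ'(s) = X² ∓ (q + 1) X + q`. -/
theorem s35asm_of_tate (p : ℕ) [Fact p.Prime] (N : ℕ) (hN : N ≠ 0) (S : Finset ℕ) (hpS : p ∈ S)
    (𝒪' : Type) [CommRing 𝒪'] [IsDomain 𝒪'] [IsDiscreteValuationRing 𝒪']
    [IsAdicComplete (maximalIdeal 𝒪') 𝒪'] [Finite (ResidueField 𝒪')] [CharZero 𝒪']
    (hp : (p : 𝒪') ∈ maximalIdeal 𝒪') [Algebra ℤ_[p] 𝒪']
    {J : Type} [AddCommGroup J] [DistribMulAction GQ J] (𝒯 : GatTate p J)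
    (hfin : {x : J | p • x = 0}.Finite)
    (hopen : ∀ x : J, (∃ n : ℕ, p ^ n • x = 0) → ∃ L : IntermediateField ℚ Qb,
      FiniteDimensional ℚ L ∧ ∀ σ : GQ, (∀ y ∈ L, σ y = y) → σ • x = x)
    (Tℓ : ℕ → (J →+ J)) (hcomm : ∀ (ℓ : ℕ) (σ : GQ) (x : J), Tℓ ℓ (σ • x) = σ • Tℓ ℓ x)
    (a : ℕ → 𝒪')
    (hunr : ∀ q : ℕ, q.Prime → ¬ q ∣ N → q ≠ p → ∀ A : ValuationSubring Qb,
      A.LiesOverPrime q → ∀ σ ∈ A.inertiaSubgroupIn ℚ, ∀ x : J, (∃ n : ℕ, p ^ n • x = 0) →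
        σ • x = x)
    (hfrob : ∀ ℓ : ℕ, ℓ.Prime → ¬ ℓ ∣ N → ℓ ∉ S → ∀ A : ValuationSubring Qb,
      A.LiesOverPrime ℓ → ∀ σ : GQ, A.IsFrobeniusAt σ ℓ → ∀ x : J, (∃ n : ℕ, p ^ n • x = 0) →
        σ • σ • x - Tℓ ℓ (σ • x) + ℓ • x = 0)
    (hv : ∃ v : 𝒪' ⊗[ℤ_[p]] 𝒯.T, v ≠ 0 ∧ ∀ ℓ : ℕ, ℓ.Prime → ¬ ℓ ∣ N → ℓ ∉ S →
      ∀ w : 𝒯.T →ₗ[ℤ_[p]] 𝒯.T, (∀ (n : ℕ) (x : 𝒯.T), 𝒯.ev n (w x) = Tℓ ℓ (𝒯.ev n x)) →
        w.baseChange 𝒪' v = a ℓ • v) :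
    S35asmConcl p N S 𝒪' a (fun q s => ∃ m : ℕ, ∀ x : J, (∃ n : ℕ, p ^ n • x = 0) →
      (s35asmPhi (DistribMulAction.toAddMonoidEnd GQ J s) q ^ m) x = 0)
      (fun _ A => ∃ c : ℕ, c ≠ 0 ∧ ∀ x : J, (∃ n : ℕ, p ^ n • x = 0) →
        (∀ σ ∈ A.inertiaSubgroupIn ℚ, σ • x = x) → c • x = 0) :=
  s35asm_engine_of_tate_aux p N S 𝒪' hp 𝒯 hopen Tℓ hcomm a hunr hfrob hv
    (gat_exists_lift 𝒯) (gat_eq_smul_of_ev_eq_zero 𝒯) (gat_finite_free 𝒯 hfin)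
    (fun ρ hcont a' hunr' hfrob' =>
      s35asm_engine_main p N hN S hpS 𝒪' hp ρ hcont a' hunr' hfrob')

end Fermat.Agent.G
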